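/-
Project S35, cell [DESC-U], part (D3) (helper9): THE INERTIA FIELD OF A FINITE LEVEL.

`A` a valuation subring of `Q̄` over the prime `q`, `I_A ⊆ D_A ⊆ G_ℚ` its inertia and decomposition
groups, `L2 ⊆ Q̄` a subfield.  The inertia level of `L2` at `A` is

  `s35d_L1 A L2 := L2 ⊓ Q̄^{I_A}`   (`Q̄^{I_A} = ffi_L A` of FF/Inst/Defs.lean).

* `s35d_L1_finiteDimensional`, `s35d_L1_fixed` (`I_A` fixes `L1` pointwise);
* `s35d_L1_stable` : for `L2` normal over `ℚ`, every `σ ∈ D_A` maps `L1` into itself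
  (`I_A` is normal in `D_A`);
* `s35d_L1_factor` : for `L2` finite and normal over `ℚ`, every `τ ∈ G_ℚ` fixing `L1` pointwise
  agrees on `L2` with an element of `I_A` (`Gal(Q̄/L1) = Gal(Q̄/L2) · I_A`; Galois correspondence
  in `Gal(L2/ℚ)`);
* `s35d_dvr` : for ANY subfield `L1 ⊆ Q̄^{I_A}`, `A ∩ L1` is a discrete valuation ring with
  uniformiser `q` (the inertia field is unramified: `ffi_lvi_unit` of FF/Inst/LevelInertia.lean);
  `s35d_unr` : `𝔪_A ∩ L1 = q · (A ∩ L1)`;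
* `s35d_frob_congr`, `s35d_frob_mem` : the Frobenius congruence `φ x ≡ x ^ q mod 𝔪_A` on `A`;
  `s35d_frob_congr_q` : on `A ∩ L1`, `L1 ⊆ Q̄^{I_A}` stable under `φ`: `φ a - a ^ q ∈ q · A`;
* `s35d_root_fixed` : roots of unity of order prime to `q` are fixed by `I_A`;
* `s35d_res` : the restriction of `σ ∈ G_ℚ` to a `σ`-stable subfield, as an automorphism;
* `s35d_exists_level` : THE PACKAGE.

Prefix `s35d_`.
-/
import Mathlib
import Fermat.Agent.FF.Inst.LevelInertia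
import Fermat.Agent.S55.LevelFields

set_option autoImplicit false
set_option linter.unusedSectionVars false
set_option linter.style.haveILetI false

noncomputable section

namespace Fermat.Agent.S35

open Fermat.Agent.FF Fermat.Agent.JT3 Fermat.Agent.S55 IntermediateField
open scoped Pointwise

local notation "Qb" => AlgebraicClosure ℚ
local notation "GQ" => (AlgebraicClosure ℚ ≃ₐ[ℚ] AlgebraicClosure ℚ)

/-! ### the groups -/

/-- the inertia group is normalised by the decomposition group -/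
theorem s35d_conj_mem_inertia (A : ValuationSubring Qb) {σ s : GQ}
    (hσ : σ ∈ A.decompositionSubgroup ℚ) (hs : s ∈ A.inertiaSubgroupIn ℚ) :
    σ⁻¹ * s * σ ∈ A.inertiaSubgroupIn ℚ := by
  obtain ⟨s', hs', rfl⟩ := hs
  have hn : (A.inertiaSubgroup ℚ).Normal := by
    unfold ValuationSubring.inertiaSubgroup
    infer_instance
  have h1 := hn.conj_mem s' hs' (⟨σ, hσ⟩ : A.decompositionSubgroup ℚ)⁻¹
  rw [inv_inv] at h1
  exact ⟨_, h1, rfl⟩

/-- `Q̄ / ℚ` is normal -/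
theorem s35d_normal_Qb : Normal ℚ Qb := by
  have _ : IsAlgClosure ℚ Qb := ⟨inferInstance, AlgebraicClosure.isAlgebraic ℚ⟩
  infer_instance

/-! ### the inertia level -/

/-- the inertia level `L1 = L2 ⊓ Q̄^{I_A}` of a subfield `L2` of `Q̄` at the place `A`. -/
def s35d_L1 (A : ValuationSubring Qb) (L2 : IntermediateField ℚ Qb) : IntermediateField ℚ Qb :=
  L2 ⊓ ffi_L A

variable (A : ValuationSubring Qb) (L2 : IntermediateField ℚ Qb)

theorem s35d_mem_L1 {a : Qb} :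
    a ∈ s35d_L1 A L2 ↔ a ∈ L2 ∧ ∀ s ∈ A.inertiaSubgroupIn ℚ, s a = a := by
  rw [s35d_L1, IntermediateField.mem_inf, ffi_mem_L]

theorem s35d_L1_le : s35d_L1 A L2 ≤ L2 := inf_le_left

theorem s35d_L1_le_inertia : s35d_L1 A L2 ≤ ffi_L A := inf_le_right

theorem s35d_L1_fixed {a : Qb} (ha : a ∈ s35d_L1 A L2) {s : GQ}
    (hs : s ∈ A.inertiaSubgroupIn ℚ) : s a = a :=
  ((s35d_mem_L1 A L2).1 ha).2 s hs

theorem s35d_L1_finiteDimensional [FiniteDimensional ℚ L2] :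
    FiniteDimensional ℚ (s35d_L1 A L2) := by
  have h : (s35d_L1 A L2).toSubalgebra.toSubmodule ≤ L2.toSubalgebra.toSubmodule :=
    fun x hx => s35d_L1_le A L2 hx
  exact Submodule.finiteDimensional_of_le h

/-- every element of the decomposition group maps the inertia level of a normal `L2` into
itself. -/
theorem s35d_L1_stable [Normal ℚ L2] {σ : GQ} (hσ : σ ∈ A.decompositionSubgroup ℚ) {a : Qb}
    (ha : a ∈ s35d_L1 A L2) : σ a ∈ s35d_L1 A L2 := by
  rw [s35d_mem_L1] at ha ⊢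
  refine ⟨?_, fun s hs => ?_⟩
  · have h1 := AlgEquiv.restrictNormal_commutes σ L2 ⟨a, ha.1⟩
    have h2 : σ a = algebraMap L2 Qb (σ.restrictNormal L2 ⟨a, ha.1⟩) := h1.symm
    rw [h2]
    exact (σ.restrictNormal L2 ⟨a, ha.1⟩).2
  · have h1 := ha.2 _ (s35d_conj_mem_inertia A hσ hs)
    have h2 : s (σ a) = σ ((σ⁻¹ * s * σ) a) := by
      simp only [AlgEquiv.mul_apply, AlgEquiv.aut_inv]
      rw [AlgEquiv.apply_symm_apply]
    rw [h2, h1]

/-- **`Gal(Q̄/L1) = Gal(Q̄/L2) · I_A`**: for `L2` finite and normal over `ℚ`, every automorphism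
of `Q̄` fixing the inertia level `L1` of `L2` pointwise agrees on `L2` with an element of the
inertia group. -/
theorem s35d_L1_factor [FiniteDimensional ℚ L2] [Normal ℚ L2] (τ : GQ)
    (hτ : ∀ a ∈ s35d_L1 A L2, τ a = a) :
    ∃ s ∈ A.inertiaSubgroupIn ℚ, ∀ a ∈ L2, τ a = s a := by
  classical
  set H : Subgroup (L2 ≃ₐ[ℚ] L2) :=
    (A.inertiaSubgroupIn ℚ).map (AlgEquiv.restrictNormalHom L2) with hH
  have hcomm : ∀ (g : GQ) (x : L2), ((AlgEquiv.restrictNormalHom L2 g x : L2) : Qb) = g (x : Qb) :=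
    fun g x => AlgEquiv.restrictNormal_commutes g L2 x
  have hmem : AlgEquiv.restrictNormalHom L2 τ ∈ (IntermediateField.fixedField H).fixingSubgroup := by
    rw [IntermediateField.mem_fixingSubgroup_iff]
    intro x hx
    rw [IntermediateField.mem_fixedField_iff] at hx
    apply Subtype.ext
    rw [hcomm]
    apply hτ
    rw [s35d_mem_L1]
    refine ⟨x.2, fun s hs => ?_⟩
    have h1 := hx _ (Subgroup.mem_map_of_mem _ hs)
    have h2 := congrArg (fun y : L2 => (y : Qb)) h1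
    simp only [hcomm] at h2
    exact h2
  rw [IntermediateField.fixingSubgroup_fixedField] at hmem
  obtain ⟨s, hs, hsτ⟩ := hmem
  refine ⟨s, hs, fun a ha => ?_⟩
  have h1 := congrArg (fun g : L2 ≃ₐ[ℚ] L2 => ((g ⟨a, ha⟩ : L2) : Qb)) hsτ
  simp only [hcomm] at h1
  exact h1.symm

/-! ### unramifiedness -/

section Unram

variable (q : ℕ) [hq : Fact q.Prime] (hA : A.LiesOverPrime q)
  (L1 : IntermediateField ℚ Qb) (hL1 : L1 ≤ ffi_L A)

include hA hL1 in
/-- **the inertia field is unramified**: for a subfield `L1 ⊆ Q̄^{I_A}`, `A ∩ L1` is a discrete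
valuation ring and `q` is a uniformiser of it. -/
theorem s35d_dvr :
    IsDiscreteValuationRing ↥(A.comap (algebraMap L1 Qb)) ∧
      Irreducible (((q : ℕ) : ↥(A.comap (algebraMap L1 Qb)))) := by
  have hq0 : (q : Qb) ≠ 0 := Nat.cast_ne_zero.2 hq.out.ne_zero
  have hunit : ∀ x : L1, x ≠ 0 →
      ∃ n : ℤ, x * ((q : ℕ) : L1) ^ n ∈ A.comap (algebraMap L1 Qb) ∧
        (x * ((q : ℕ) : L1) ^ n)⁻¹ ∈ A.comap (algebraMap L1 Qb) := by
    intro x hx
    obtain ⟨n, h1, h2⟩ := ffi_lvi_unit q A hA (hL1 x.2) (fun h0 => hx (Subtype.ext h0))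
    refine ⟨n, ?_, ?_⟩
    · rw [ValuationSubring.mem_comap, map_mul, map_zpow₀, map_natCast]; exact h1
    · rw [ValuationSubring.mem_comap, map_inv₀, map_mul, map_zpow₀, map_natCast]; exact h2
  have hqn : ((q : ℕ) : L1) ∈ (A.comap (algebraMap L1 Qb)).nonunits := by
    rw [dsc_mem_comap_nonunits_iff, map_natCast]; exact hA
  have hq0' : ((q : ℕ) : L1) ≠ 0 := by exact_mod_cast hq.out.ne_zero
  obtain ⟨hdvr, hirr⟩ := ebf_isDVR_and_irreducible (A.comap (algebraMap L1 Qb)) ((q : ℕ) : L1)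
    hqn hq0' hunit
  refine ⟨hdvr, ?_⟩
  convert hirr using 1
  apply Subtype.ext
  simp

include hA hL1 in
/-- `𝔪_A ∩ L1 = q · (A ∩ L1)` -/
theorem s35d_unr {a : Qb} (ha : a ∈ L1) (han : a ∈ A.nonunits) : a / (q : Qb) ∈ A :=
  ffi_lvi_unr q A hA (hL1 ha) han

include hA in
/-- roots of unity of order prime to `q` are fixed by the inertia group -/
theorem s35d_root_fixed {m : ℕ} (hm : ¬ q ∣ m) {ζ : Qb} (hζ : ζ ^ m = 1) {s : GQ}
    (hs : s ∈ A.inertiaSubgroupIn ℚ) : s ζ = ζ :=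
  ffi_lvi_root_fixed q A hA hm hζ s hs

include hA in
/-- roots of unity of order prime to `q` lying in `L2` lie in its inertia level -/
theorem s35d_root_mem {m : ℕ} (hm : ¬ q ∣ m) {ζ : Qb} (hζ : ζ ^ m = 1) (hζ2 : ζ ∈ L2) :
    ζ ∈ s35d_L1 A L2 :=
  (s35d_mem_L1 A L2).2 ⟨hζ2, fun _ hs => s35d_root_fixed A q hA hm hζ hs⟩

end Unram

/-! ### Frobenius elements -/

section Frob

variable {A}

theorem s35d_decomp_mem {σ : GQ} (hσ : σ ∈ A.decompositionSubgroup ℚ) {x : Qb} (hx : x ∈ A) :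
    σ x ∈ A := by
  have h1 : σ • A = A := hσ
  rw [← h1]
  exact ⟨x, hx, rfl⟩

theorem s35d_frob_mem {φ : GQ} {q : ℕ} (hφ : A.IsFrobeniusAt φ q) {x : Qb} (hx : x ∈ A) :
    φ x ∈ A :=
  s35d_decomp_mem hφ.mem_decompositionSubgroup hx

/-- the Frobenius congruence: `φ x ≡ x ^ q mod 𝔪_A` for `x ∈ A`. -/
theorem s35d_frob_congr {φ : GQ} {q : ℕ} (hφ : A.IsFrobeniusAt φ q) {x : Qb} (hx : x ∈ A) :
    φ x - x ^ q ∈ A.nonunits := by
  have h := hφ.smul_residue_eq (IsLocalRing.residue A ⟨x, hx⟩)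
  rw [← IsLocalRing.ResidueField.residue_smul, ← map_pow] at h
  have h1 := Ideal.Quotient.eq.mp h
  rw [← ValuationSubring.coe_mem_nonunits_iff] at h1
  exact h1

/-- the Frobenius congruence modulo `q` on an unramified `φ`-stable level `L1 ⊆ Q̄^{I_A}`. -/
theorem s35d_frob_congr_q {φ : GQ} {q : ℕ} [Fact q.Prime] (hA : A.LiesOverPrime q)
    (hφ : A.IsFrobeniusAt φ q) (L1 : IntermediateField ℚ Qb) (hL1 : L1 ≤ ffi_L A)
    {a : Qb} (ha : a ∈ L1) (hφa : φ a ∈ L1) (haA : a ∈ A) :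
    (φ a - a ^ q) / (q : Qb) ∈ A :=
  s35d_unr A q hA L1 hL1 (sub_mem hφa (pow_mem ha q)) (s35d_frob_congr hφ haA)

end Frob

/-! ### restriction to a stable subfield -/

section Res

/-- the restriction of `σ ∈ G_ℚ` to a subfield `L1 ⊆ Q̄` stable under `σ` and `σ⁻¹`. -/
def s35d_res (L1 : IntermediateField ℚ Qb) (σ : GQ) (h1 : ∀ a ∈ L1, σ a ∈ L1)
    (h2 : ∀ a ∈ L1, σ⁻¹ a ∈ L1) : L1 ≃ₐ[ℚ] L1 :=
  AlgEquiv.ofAlgHom
    (((σ : Qb →ₐ[ℚ] Qb).comp L1.val).codRestrict L1.toSubalgebra (fun x => h1 x x.2))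
    (((σ⁻¹ : GQ) : Qb →ₐ[ℚ] Qb).comp L1.val |>.codRestrict L1.toSubalgebra (fun x => h2 x x.2))
    (by
      ext x
      show σ (σ.symm (x : Qb)) = x
      exact σ.apply_symm_apply x)
    (by
      ext x
      show σ.symm (σ (x : Qb)) = x
      exact σ.symm_apply_apply x)

theorem s35d_res_coe (L1 : IntermediateField ℚ Qb) (σ : GQ) (h1 : ∀ a ∈ L1, σ a ∈ L1)
    (h2 : ∀ a ∈ L1, σ⁻¹ a ∈ L1) (x : L1) :
    algebraMap L1 Qb (s35d_res L1 σ h1 h2 x) = σ (algebraMap L1 Qb x) := rfl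

theorem s35d_res_symm_coe (L1 : IntermediateField ℚ Qb) (σ : GQ) (h1 : ∀ a ∈ L1, σ a ∈ L1)
    (h2 : ∀ a ∈ L1, σ⁻¹ a ∈ L1) (x : L1) :
    algebraMap L1 Qb ((s35d_res L1 σ h1 h2).symm x) = σ⁻¹ (algebraMap L1 Qb x) := rfl

end Res

/-! ### levels -/

/-- **an unramified level at `A`**: a number field `L1 ⊆ Q̄^{I_A}`, stable under the decomposition
group `D_A`, such that `A ∩ L1` is a discrete valuation ring with uniformiser `q`. -/
structure s35d_IsLevel (q : ℕ) (L1 : IntermediateField ℚ Qb) : Prop where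
  fd : FiniteDimensional ℚ L1
  /-- `I_A` fixes `L1` pointwise -/
  le : L1 ≤ ffi_L A
  /-- `D_A` maps `L1` into itself -/
  stable : ∀ σ ∈ A.decompositionSubgroup ℚ, ∀ a ∈ L1, σ a ∈ L1
  dvr : IsDiscreteValuationRing ↥(A.comap (algebraMap L1 Qb))
  /-- `q` is a uniformiser of `A ∩ L1` -/
  irr : Irreducible (((q : ℕ) : ↥(A.comap (algebraMap L1 Qb))))

section Level

variable {A} {q : ℕ} {L1 : IntermediateField ℚ Qb}

theorem s35d_IsLevel.fixed (h : s35d_IsLevel A q L1) {a : Qb} (ha : a ∈ L1) {s : GQ}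
    (hs : s ∈ A.inertiaSubgroupIn ℚ) : s a = a :=
  ffi_mem_L.1 (h.le ha) s hs

theorem s35d_IsLevel.stable_inv (h : s35d_IsLevel A q L1) {σ : GQ}
    (hσ : σ ∈ A.decompositionSubgroup ℚ) : ∀ a ∈ L1, σ⁻¹ a ∈ L1 :=
  h.stable σ⁻¹ (inv_mem hσ)

/-- the restriction of `σ ∈ D_A` to a level. -/
def s35d_IsLevel.res (h : s35d_IsLevel A q L1) (σ : GQ) (hσ : σ ∈ A.decompositionSubgroup ℚ) :
    L1 ≃ₐ[ℚ] L1 :=
  s35d_res L1 σ (h.stable σ hσ) (h.stable_inv hσ)

theorem s35d_IsLevel.res_coe (h : s35d_IsLevel A q L1) (σ : GQ)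
    (hσ : σ ∈ A.decompositionSubgroup ℚ) (x : L1) :
    algebraMap L1 Qb (h.res σ hσ x) = σ (algebraMap L1 Qb x) := rfl

theorem s35d_IsLevel.res_symm_coe (h : s35d_IsLevel A q L1) (σ : GQ)
    (hσ : σ ∈ A.decompositionSubgroup ℚ) (x : L1) :
    algebraMap L1 Qb ((h.res σ hσ).symm x) = σ⁻¹ (algebraMap L1 Qb x) := rfl

/-- the restriction of `σ ∈ D_A` to a level preserves `O1 = A ∩ L1`. -/
theorem s35d_IsLevel.res_mem (h : s35d_IsLevel A q L1) (σ : GQ)
    (hσ : σ ∈ A.decompositionSubgroup ℚ) {x : L1} (hx : x ∈ A.comap (algebraMap L1 Qb)) :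
    h.res σ hσ x ∈ A.comap (algebraMap L1 Qb) ∧
      (h.res σ hσ).symm x ∈ A.comap (algebraMap L1 Qb) := by
  refine ⟨?_, ?_⟩
  · rw [ValuationSubring.mem_comap, h.res_coe]
    exact s35d_decomp_mem hσ hx
  · rw [ValuationSubring.mem_comap, h.res_symm_coe]
    exact s35d_decomp_mem (inv_mem hσ) hx

/-- **the Frobenius congruence on a level**: `φ1 x ≡ x ^ q` modulo `𝔪_{O1}`. -/
theorem s35d_IsLevel.frob_congr (h : s35d_IsLevel A q L1) (φ : GQ) (hφ : A.IsFrobeniusAt φ q)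
    {x : L1} (hx : x ∈ A.comap (algebraMap L1 Qb)) :
    h.res φ hφ.mem_decompositionSubgroup x - x ^ q ∈ (A.comap (algebraMap L1 Qb)).nonunits := by
  rw [dsc_mem_comap_nonunits_iff, map_sub, map_pow, h.res_coe]
  exact s35d_frob_congr hφ hx

/-- **the Frobenius congruence on a level, modulo `q`**: `φ1 x = x ^ q + q y`, `y ∈ O1`. -/
theorem s35d_IsLevel.frob_congr_q [Fact q.Prime] (hA : A.LiesOverPrime q)
    (h : s35d_IsLevel A q L1) (φ : GQ) (hφ : A.IsFrobeniusAt φ q)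
    {x : L1} (hx : x ∈ A.comap (algebraMap L1 Qb)) :
    ∃ y ∈ A.comap (algebraMap L1 Qb),
      h.res φ hφ.mem_decompositionSubgroup x = x ^ q + ((q : ℕ) : L1) * y := by
  have hq0 : ((q : ℕ) : L1) ≠ 0 := Nat.cast_ne_zero.2 (Fact.out : q.Prime).ne_zero
  refine ⟨(h.res φ hφ.mem_decompositionSubgroup x - x ^ q) / ((q : ℕ) : L1), ?_, ?_⟩
  · rw [ValuationSubring.mem_comap, map_div₀, map_sub, map_pow, h.res_coe, map_natCast]
    exact s35d_frob_congr_q hA hφ L1 h.le x.2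
      (h.stable φ hφ.mem_decompositionSubgroup _ x.2) hx
  · field_simp
    ring

/-- an inertia element restricts to the identity of a level. -/
theorem s35d_IsLevel.res_inertia (h : s35d_IsLevel A q L1) {s : GQ}
    (hs : s ∈ A.inertiaSubgroupIn ℚ) (hs' : s ∈ A.decompositionSubgroup ℚ) (x : L1) :
    h.res s hs' x = x := by
  apply (algebraMap L1 Qb).injective
  rw [h.res_coe]
  exact h.fixed x.2 hs

end Level

/-- the inertia level of a finite normal `L2` is a level. -/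
theorem s35d_L1_isLevel (q : ℕ) [Fact q.Prime] (hA : A.LiesOverPrime q)
    [FiniteDimensional ℚ L2] [Normal ℚ L2] : s35d_IsLevel A q (s35d_L1 A L2) where
  fd := s35d_L1_finiteDimensional A L2
  le := s35d_L1_le_inertia A L2
  stable := fun _ hσ _ ha => s35d_L1_stable A L2 hσ ha
  dvr := (s35d_dvr A q hA _ (s35d_L1_le_inertia A L2)).1
  irr := (s35d_dvr A q hA _ (s35d_L1_le_inertia A L2)).2

/-- **THE PACKAGE.**  `A` over `q`, `S ⊆ Q̄` finite, `T ⊆ Q̄^{I_A}` finite.  There are a number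
field `L2 ⊇ S ∪ T`, normal over `ℚ`, and the level `L1 = L2 ⊓ Q̄^{I_A} ⊇ T` such that every
`τ ∈ G_ℚ` fixing `L1` pointwise agrees on `L2` with an element of `I_A`. -/
theorem s35d_exists_level (q : ℕ) [Fact q.Prime] (hA : A.LiesOverPrime q) (S T : Finset Qb)
    (hT : ∀ t ∈ T, t ∈ ffi_L A) :
    ∃ L2 L1 : IntermediateField ℚ Qb, FiniteDimensional ℚ L2 ∧ Normal ℚ L2 ∧
      (↑S : Set Qb) ⊆ L2 ∧ L1 ≤ L2 ∧ s35d_IsLevel A q L1 ∧ (↑T : Set Qb) ⊆ L1 ∧
      ∀ τ : GQ, (∀ a ∈ L1, τ a = a) → ∃ s ∈ A.inertiaSubgroupIn ℚ, ∀ a ∈ L2, τ a = s a := by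
  classical
  have _ : Algebra.IsAlgebraic ℚ Qb := AlgebraicClosure.isAlgebraic ℚ
  have _ : Algebra.IsIntegral ℚ Qb := Algebra.IsAlgebraic.isIntegral
  have _ : Normal ℚ Qb := s35d_normal_Qb
  set K1 : IntermediateField ℚ Qb := IntermediateField.adjoin ℚ (↑(S ∪ T) : Set Qb) with hK1
  have hK1fd : FiniteDimensional ℚ K1 :=
    IntermediateField.finiteDimensional_adjoin (fun x _ => Algebra.IsIntegral.isIntegral x)
  set L2 : IntermediateField ℚ Qb := IntermediateField.normalClosure ℚ K1 Qb with hL2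
  have hL2fd : FiniteDimensional ℚ L2 := normalClosure.is_finiteDimensional ℚ K1 Qb
  have hL2n : Normal ℚ L2 := normalClosure.normal ℚ K1 Qb
  have hsub : (↑(S ∪ T) : Set Qb) ⊆ L2 := fun x hx =>
    IntermediateField.le_normalClosure K1 (IntermediateField.subset_adjoin ℚ _ hx)
  refine ⟨L2, s35d_L1 A L2, hL2fd, hL2n, ?_, s35d_L1_le A L2, s35d_L1_isLevel A L2 q hA, ?_,
    fun τ hτ => s35d_L1_factor A L2 τ hτ⟩
  · intro x hx
    exact hsub (by rw [Finset.mem_coe] at hx ⊢; exact Finset.mem_union_left _ hx)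
  · intro x hx
    rw [SetLike.mem_coe, s35d_L1, IntermediateField.mem_inf]
    exact ⟨hsub (by rw [Finset.mem_coe] at hx ⊢; exact Finset.mem_union_right _ hx),
      hT x (Finset.mem_coe.1 hx)⟩

end Fermat.Agent.S35
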