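/-
Project S35, cell [DESC-φ], piece (N1) (helper9): THE NORMS ALONG THE DEGENERACY MAPS COMMUTE WITH
THE EXTENSION OF CONSTANTS.

For `q` prime, `q ∤ N'`, a field `L1 → Q̄`, `bc = dsc_bcHom L1 Q̄ _ : F_M(L1) → F_M(Q̄)`
(coefficientwise) and `g ∈ F_{N' q}(L1)`:

* `s35d_norm_bc_alpha` : `N_{α_q / Q̄} (bc g) = bc (N_{α_q / L1} g)`,
* `s35d_norm_bc_beta`  : `N_{β_q / Q̄} (bc g) = bc (N_{β_q / L1} g)`

(`α_q` = inclusion `F_{N'} ⊆ F_{N' q}`, `β_q = (X ↦ X^q)`: the prelude's `heckeAlphaBar`,
`heckeBetaBar`; norms along the prelude's `algebraAlong` instances, `s35pe_normAlong`).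

Route: `s35pe_norm_baseChange` (a basis of `E / F` goes to a basis of `E' / F'`): the squares
commute on coefficients, all four degrees are `q + 1` (`ssm_al_relfinrank`,
`ssm_al_relfinrank_beta` over `L1` and over `Q̄`), and `F_{N' q}(Q̄)` is generated by `F_{N' q}(L1)`
and the constants (`dsc_bc_mem_closure`).  Prefix `s35d_`.
-/
import Mathlib
import Fermat.Agent.S35.PEquiv.NormAlong
import Fermat.Agent.SS.Model.ALE
import Fermat.Agent.JT3.Inst.Defs
import Fermat.Agent.JT3.Descent.FieldOfDef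

set_option autoImplicit false
set_option linter.unusedSectionVars false
set_option linter.style.haveILetI false

noncomputable section

namespace Fermat.Agent.S35

open AlgebraicCurve ModularCurve Module
open Fermat.Agent.S24 Fermat.Agent.JT3 Fermat.Agent.SS

local notation "Qb" => AlgebraicClosure ℚ

/-! ### base change of a norm along homomorphisms over two different constant fields -/

/-- **base change** in a commutative square with equal degrees and generation; the two horizontal
maps are algebra homomorphisms over two (possibly different) fields `K`, `K'`. -/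
theorem s35d_normAlong_baseChange {K K' F E F' E' : Type*} [Field K] [Field K'] [Field F]
    [Field E] [Field F'] [Field E'] [Algebra K F] [Algebra K E] [Algebra K' F'] [Algebra K' E']
    (γ₀ : F →ₐ[K] E) (γ₁ : F' →ₐ[K'] E') (b₀ : F →+* F') (b₁ : E →+* E')
    (hcomm : ∀ x, b₁ (γ₀ x) = γ₁ (b₀ x))
    (hpos : 0 < finrankAlong K γ₀) (hdeg : finrankAlong K' γ₁ = finrankAlong K γ₀)
    (hgen : ∀ S : Subfield E', (∀ x, γ₁ x ∈ S) → (∀ y, b₁ y ∈ S) → S = ⊤) (g : E) :
    s35pe_normAlong γ₁ (b₁ g) = b₀ (s35pe_normAlong γ₀ g) := by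
  letI i0 := algebraAlong γ₀
  letI i1 := algebraAlong γ₁
  haveI hf0 : FiniteDimensional F E := Module.finite_of_finrank_pos hpos
  haveI hf1 : FiniteDimensional F' E' := Module.finite_of_finrank_pos (by
    have : finrank F' E' = finrank F E := hdeg
    rw [this]; exact hpos)
  refine s35pe_norm_baseChange b₀ b₁ hcomm hdeg ?_ g
  -- generation
  have halg : Algebra.IsAlgebraic F' E' := Algebra.IsAlgebraic.of_finite F' E'
  set A : Subalgebra F' E' := Algebra.adjoin F' (Set.range b₁) with hA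
  set I : IntermediateField F' E' := subalgebraEquivIntermediateField A with hI
  have hIA : ∀ x, x ∈ I ↔ x ∈ A := fun x => by
    rw [hI, mem_subalgebraEquivIntermediateField]
  have h := hgen I.toSubfield (fun x => I.algebraMap_mem x)
    (fun y => (hIA _).mpr (Algebra.subset_adjoin ⟨y, rfl⟩))
  rw [eq_top_iff]
  intro x _
  have hx : x ∈ I.toSubfield := by rw [h]; trivial
  exact (hIA x).mp hx

/-! ### the level fields over a field of characteristic zero -/

section Levels

variable (L : Type*) [Field L] [Algebra ℚ L]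

/-- the level-`M` field over `L` (prelude form) -/
abbrev s35d_FL (M : ℕ) [NeZero M] : IntermediateField L (LaurentSeries L) :=
  laurentBaseChange L (modularFunctionFieldFull M)

theorem s35d_FL_eq (M : ℕ) [NeZero M] : s35d_FL L M = lg_F L M :=
  (lg_F_eq_laurentBaseChange L M).symm

theorem s35d_FL_mono {M M' : ℕ} [NeZero M] [NeZero M'] (h : M ∣ M') :
    s35d_FL L M ≤ s35d_FL L M' := by
  rw [s35d_FL_eq, s35d_FL_eq]
  exact full_degeneracyC_le L h

theorem s35d_FL_expand {M M' n : ℕ} [NeZero M] [NeZero M'] [NeZero n] (h : M * n ∣ M')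
    {x : LaurentSeries L} (hx : x ∈ s35d_FL L M) : qExpandAlgHomC L n x ∈ s35d_FL L M' := by
  rw [s35d_FL_eq] at hx
  have h1 : qExpandAlgHomC L n x ∈ lg_F L (M * n) :=
    full_degeneracyC_map_le L M n ⟨x, hx, rfl⟩
  rw [s35d_FL_eq]
  exact full_degeneracyC_le L h h1

theorem s35d_alpha_eq (M n : ℕ) [NeZero M] [NeZero n] :
    heckeAlphaBar L M n = IntermediateField.inclusion (s35d_FL_mono L (Dvd.intro n rfl)) :=
  rfl

theorem s35d_beta_eq (M n : ℕ) [NeZero M] [NeZero n] :
    heckeBetaBar L M n = s35pe_res (qExpandAlgHomC L n) (s35d_FL L M) (s35d_FL L (M * n))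
      (fun _ hx => s35d_FL_expand L dvd_rfl hx) :=
  AlgHom.ext fun _ => Subtype.ext rfl

variable [Algebra L Qb] (M q : ℕ) [NeZero M] [NeZero q] (hq : q.Prime) (hqM : ¬ q ∣ M)

include hq hqM in
/-- `[F_{M q}(L) : F_M(L)] = q + 1` along `α_q`. -/
theorem s35d_finrankAlong_alpha : finrankAlong L (heckeAlphaBar L M q) = q + 1 := by
  haveI : CharZero L := algebraRat.charZero L
  rw [s35d_alpha_eq, s35pe_finrankAlong_inclusion, s35d_FL_eq, s35d_FL_eq]
  exact ssm_al_relfinrank L M q hq hqM

include hq hqM in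
/-- `[F_{M q}(L) : β_q F_M(L)] = q + 1`. -/
theorem s35d_finrankAlong_beta : finrankAlong L (heckeBetaBar L M q) = q + 1 := by
  haveI : CharZero L := algebraRat.charZero L
  rw [s35d_beta_eq, s35pe_finrankAlong_res, s35d_FL_eq, s35d_FL_eq]
  exact ssm_al_relfinrank_beta L M q hq hqM

end Levels

/-! ### the two squares -/

section Squares

variable (N' q : ℕ) [NeZero N'] [NeZero q]
  (L1 : Type) [Field L1] [Algebra ℚ L1] [Algebra L1 Qb] [IsScalarTower ℚ L1 Qb]

attribute [local instance] dsc_bcAlgebra dsc_bcAlgebra' in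
/-- generation: `F_M(Q̄)` is generated by `F_M(L1)` and the constants. -/
theorem s35d_bc_gen (M : ℕ) [NeZero M] {F' : Type*} [Field F']
    (γ₁ : F' →+* laurentBaseChange Qb (modularFunctionFieldFull M))
    (hconst : ∀ c : Qb, ∃ x : F',
      γ₁ x = algebraMap Qb (laurentBaseChange Qb (modularFunctionFieldFull M)) c)
    (S : Subfield (laurentBaseChange Qb (modularFunctionFieldFull M)))
    (h1 : ∀ x, γ₁ x ∈ S) (h2 : ∀ y, dsc_bcHom L1 Qb (modularFunctionFieldFull M) y ∈ S) :
    S = ⊤ := by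
  rw [eq_top_iff]
  intro y _
  have hy := dsc_bc_mem_closure L1 Qb (modularFunctionFieldFull M) y
  have hle : Subfield.closure
      (Set.range (algebraMap (laurentBaseChange L1 (modularFunctionFieldFull M))
        (laurentBaseChange Qb (modularFunctionFieldFull M))) ∪
        Set.range (algebraMap Qb (laurentBaseChange Qb (modularFunctionFieldFull M)))) ≤ S := by
    rw [Subfield.closure_le]
    rintro z (⟨a, rfl⟩ | ⟨c, rfl⟩)
    · exact h2 a
    · obtain ⟨x, hx⟩ := hconst c
      rw [← hx]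
      exact h1 x
  exact hle hy

/-- **(N1), `α`, generic in the degree**: valid for ANY `N'`, `q` as soon as the two degrees along
`α_q` (over `L1` and over `Q̄`) agree and are positive. -/
theorem s35d_norm_bc_alpha_of_deg
    (hpos : 0 < finrankAlong L1 (heckeAlphaBar L1 N' q))
    (hdeg : finrankAlong Qb (heckeAlphaBar Qb N' q) = finrankAlong L1 (heckeAlphaBar L1 N' q))
    (g : laurentBaseChange L1 (modularFunctionFieldFull (N' * q))) :
    s35pe_normAlong (heckeAlphaBar Qb N' q)
        (dsc_bcHom L1 Qb (modularFunctionFieldFull (N' * q)) g) =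
      dsc_bcHom L1 Qb (modularFunctionFieldFull N')
        (s35pe_normAlong (heckeAlphaBar L1 N' q) g) := by
  refine s35d_normAlong_baseChange (heckeAlphaBar L1 N' q) (heckeAlphaBar Qb N' q)
    (dsc_bcHom L1 Qb (modularFunctionFieldFull N'))
    (dsc_bcHom L1 Qb (modularFunctionFieldFull (N' * q))) ?_ hpos hdeg ?_ g
  · intro x
    apply Subtype.ext
    rw [dsc_bcHom_coe, coe_heckeAlphaBar, coe_heckeAlphaBar, dsc_bcHom_coe]
  · intro S h1 h2
    refine s35d_bc_gen L1 (N' * q) (heckeAlphaBar Qb N' q).toRingHom ?_ S h1 h2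
    intro c
    exact ⟨algebraMap Qb _ c, (heckeAlphaBar Qb N' q).commutes c⟩

/-- **(N1), `β`, generic in the degree.** -/
theorem s35d_norm_bc_beta_of_deg
    (hpos : 0 < finrankAlong L1 (heckeBetaBar L1 N' q))
    (hdeg : finrankAlong Qb (heckeBetaBar Qb N' q) = finrankAlong L1 (heckeBetaBar L1 N' q))
    (g : laurentBaseChange L1 (modularFunctionFieldFull (N' * q))) :
    s35pe_normAlong (heckeBetaBar Qb N' q)
        (dsc_bcHom L1 Qb (modularFunctionFieldFull (N' * q)) g) =
      dsc_bcHom L1 Qb (modularFunctionFieldFull N')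
        (s35pe_normAlong (heckeBetaBar L1 N' q) g) := by
  refine s35d_normAlong_baseChange (heckeBetaBar L1 N' q) (heckeBetaBar Qb N' q)
    (dsc_bcHom L1 Qb (modularFunctionFieldFull N'))
    (dsc_bcHom L1 Qb (modularFunctionFieldFull (N' * q))) ?_ hpos hdeg ?_ g
  · intro x
    apply Subtype.ext
    show dsc_cm L1 Qb (qExpand L1 q (x : LaurentSeries L1)) =
      qExpand Qb q (dsc_cm L1 Qb (x : LaurentSeries L1))
    rw [dsc_cm, coeffMap_qExpand]
  · intro S h1 h2
    refine s35d_bc_gen L1 (N' * q) (heckeBetaBar Qb N' q).toRingHom ?_ S h1 h2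
    intro c
    exact ⟨algebraMap Qb _ c, (heckeBetaBar Qb N' q).commutes c⟩

end Squares

/-- **(N1), `α`** (`q` prime, `q ∤ N'`: degree `q + 1`). -/
theorem s35d_norm_bc_alpha (N' q : ℕ) [NeZero N'] [NeZero q] (hq : q.Prime) (hqN' : ¬ q ∣ N')
    (L1 : Type) [Field L1] [Algebra ℚ L1] [Algebra L1 Qb] [IsScalarTower ℚ L1 Qb]
    (g : laurentBaseChange L1 (modularFunctionFieldFull (N' * q))) :
    s35pe_normAlong (heckeAlphaBar Qb N' q)
        (dsc_bcHom L1 Qb (modularFunctionFieldFull (N' * q)) g) =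
      dsc_bcHom L1 Qb (modularFunctionFieldFull N')
        (s35pe_normAlong (heckeAlphaBar L1 N' q) g) := by
  refine s35d_norm_bc_alpha_of_deg N' q L1 ?_ ?_ g
  · rw [s35d_finrankAlong_alpha L1 N' q hq hqN']
    exact Nat.succ_pos q
  · rw [s35d_finrankAlong_alpha L1 N' q hq hqN', s35d_finrankAlong_alpha Qb N' q hq hqN']

/-- **(N1), `β`** (`q` prime, `q ∤ N'`: degree `q + 1`). -/
theorem s35d_norm_bc_beta (N' q : ℕ) [NeZero N'] [NeZero q] (hq : q.Prime) (hqN' : ¬ q ∣ N')
    (L1 : Type) [Field L1] [Algebra ℚ L1] [Algebra L1 Qb] [IsScalarTower ℚ L1 Qb]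
    (g : laurentBaseChange L1 (modularFunctionFieldFull (N' * q))) :
    s35pe_normAlong (heckeBetaBar Qb N' q)
        (dsc_bcHom L1 Qb (modularFunctionFieldFull (N' * q)) g) =
      dsc_bcHom L1 Qb (modularFunctionFieldFull N')
        (s35pe_normAlong (heckeBetaBar L1 N' q) g) := by
  refine s35d_norm_bc_beta_of_deg N' q L1 ?_ ?_ g
  · rw [s35d_finrankAlong_beta L1 N' q hq hqN']
    exact Nat.succ_pos q
  · rw [s35d_finrankAlong_beta L1 N' q hq hqN', s35d_finrankAlong_beta Qb N' q hq hqN']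


end Fermat.Agent.S35
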