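/-
Project S35, cell [DESC-U] (helper9): ADAPTOR between the levels of `S35/DescU/InertiaField.lean`
and the Frobenius-lift predicate `s35nf_FrobAt` of `S35/NodeFrob/Gauss.lean` (helper20), resp. the
inertness predicate `ss_Inert` of `SS/CoreSeam.lean`.

For a level `L1` at `A` (`s35d_IsLevel A q L1`), `O1 = A ∩ L1`:
* `s35d_IsLevel.frobAt`  : the restriction to `L1` of a Frobenius element `φ` at `A` is a Frobenius
  lift at `O1`;
* `s35d_IsLevel.q_mem` : `q ∈ 𝔪_{O1}`.
Prefix `s35d_`.
-/
import Mathlib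
import Fermat.Agent.S35.DescU.InertiaField
import Fermat.Agent.S35.NodeFrob.Gauss

set_option autoImplicit false
set_option linter.unusedSectionVars false

noncomputable section

namespace Fermat.Agent.S35

open Fermat.Agent.FF Fermat.Agent.JT3 IntermediateField

local notation "Qb" => AlgebraicClosure ℚ
local notation "GQ" => (AlgebraicClosure ℚ ≃ₐ[ℚ] AlgebraicClosure ℚ)

variable {A : ValuationSubring Qb} {q : ℕ} {L1 : IntermediateField ℚ Qb}

/-- **the restriction of a Frobenius element at `A` to a level is a Frobenius lift at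
`O1 = A ∩ L1`.** -/
theorem s35d_IsLevel.frobAt (h : s35d_IsLevel A q L1) (φ : GQ) (hφ : A.IsFrobeniusAt φ q) :
    s35nf_FrobAt (A.comap (algebraMap L1 Qb))
      (h.res φ hφ.mem_decompositionSubgroup).toRingEquiv q := by
  intro x hx
  exact ⟨(h.res_mem φ hφ.mem_decompositionSubgroup hx).1,
    (h.res_mem φ hφ.mem_decompositionSubgroup hx).2, h.frob_congr φ hφ hx⟩

/-- `q ∈ 𝔪_{O1}` -/
theorem s35d_IsLevel.q_mem (_h : s35d_IsLevel A q L1) (hA : A.LiesOverPrime q) :
    ((q : ℕ) : L1) ∈ (A.comap (algebraMap L1 Qb)).nonunits := by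
  rw [dsc_mem_comap_nonunits_iff, map_natCast]
  exact hA

end Fermat.Agent.S35
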