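/-
Project S35, cell [DESC-φ], part (N2), HESSE cover (helper9; twin of helper22's
`SS2/DescPhi/NormCover.lean`): THE NORMS OF THE COVER `E = hs_E L h3 (N' q) ⊇ E' = hs_E L h3 N'`
(along the inclusion and along the Atkin–Lehner involution `W = ssm_fh_W`) OF A FUNCTION PULLED BACK
FROM `F_{N' q}(L)` BY `ι₃ = (X ↦ X³)` are the pull-backs of its norms along the two degeneracy maps
`α, β : F_{N'}(L) → F_{N' q}(L)`.

* `s35d_W_phik`           : GENERIC `W_M ∘ (X ↦ X^k) = (X ↦ X^k) ∘ W_{M₀}` on `F_{M₀ q}(L)` for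
                            `k M₀ ∣ M` (`ssm_al_W_phi` is the case `k = 2`);
* `s35d_coe_WEH_phi`      : `W_E (x(X³)) = (W_{N'} x)(X³)` for `x ∈ F_{N' q}(L)`;
* `s35d_iotaH h3 N`       : `ι₃ : F_N(L) → hs_E L h3 N` (`F_N(L) = laurentBaseChange L (F_N)`);
* `s35d_normEH_iota`      : `s35h_normE (ι₃ g) = ι₃ (Norm_α g)`;
* `s35d_WEH_iota`         : `W_E (ι₃ g) = ι₃ (W_F g)` (`W_F = ss2_dp_WF`);
* `s35d_normEH_W_iota`    : `s35h_normE (W_E (ι₃ g)) = ι₃ (Norm_β g)`;
* `s35d_iotaH_smul`       : `ι₃ (σ1 • x) = σ_E (ι₃ x)` (`σ_E = ssm_sgh_aut`);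
* `s35d_iotaH_dvd_ord`    : `m ∣` all orders of `g` ⟹ `m ∣` all orders of `ι₃ g`.
Prefix `s35d_`.
-/
import Mathlib
import Fermat.Agent.SS2.DescPhi.NormCover
import Fermat.Agent.S35.SeamsHes
import Fermat.Agent.JT3.Inst.H4

set_option autoImplicit false
set_option linter.unusedSectionVars false
set_option linter.unusedVariables false
set_option linter.style.haveILetI false

noncomputable section

namespace Fermat.Agent.S35

open ModularCurve AlgebraicCurve Module Fermat.Agent.JT3 Fermat.Agent.S24 Fermat.Agent.S28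
  Fermat.Agent.SS Fermat.Agent.SS2 IntermediateField

local notation "Qb" => AlgebraicClosure ℚ

/-! ### `W` commutes with `X ↦ X^k` -/

section PhiK

variable (L : Type*) [Field L] [CharZero L] [Algebra L (AlgebraicClosure ℚ)]
  (k M₀ M q : ℕ) [NeZero k] [NeZero M₀] [NeZero M] [NeZero q] (hq : q.Prime) (hqM₀ : ¬ q ∣ M₀)
  (hqM : ¬ q ∣ M)

theorem s35d_phik_mem_base (hk : k * M₀ ∣ M) {x : LaurentSeries L} (hx : x ∈ lg_F L M₀) :
    qExpand L k x ∈ lg_F L M := by
  have h1 : qExpand L k x ∈ lg_F L (M₀ * k) := full_degeneracyC_map_le L M₀ k ⟨x, hx, rfl⟩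
  exact full_degeneracyC_le L (by rwa [mul_comm]) h1

theorem s35d_phik_mem (hk : k * M₀ ∣ M) {x : LaurentSeries L} (hx : x ∈ lg_F L (M₀ * q)) :
    qExpand L k x ∈ lg_F L (M * q) := by
  have h1 : qExpand L k x ∈ lg_F L (M₀ * q * k) :=
    full_degeneracyC_map_le L (M₀ * q) k ⟨x, hx, rfl⟩
  refine full_degeneracyC_le L ?_ h1
  obtain ⟨c, rfl⟩ := hk
  exact ⟨c, by ring⟩

/-- `(X ↦ X^k) : F_{M₀ q}(L) → F_{M q}(L)` for `k M₀ ∣ M`. -/
def s35d_phikHom (hk : k * M₀ ∣ M) : lg_F L (M₀ * q) →ₐ[L] lg_F L (M * q) where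
  toFun x := ⟨qExpand L k x, s35d_phik_mem L k M₀ M q hk x.2⟩
  map_one' := Subtype.ext (map_one _)
  map_mul' _ _ := Subtype.ext (map_mul _ _ _)
  map_zero' := Subtype.ext (map_zero _)
  map_add' _ _ := Subtype.ext (map_add _ _ _)
  commutes' r := Subtype.ext (bd_qExpand_algebraMap k r)

theorem s35d_coe_phikHom (hk : k * M₀ ∣ M) (x : lg_F L (M₀ * q)) :
    ((s35d_phikHom L k M₀ M q hk x : lg_F L (M * q)) : LaurentSeries L) =
      qExpand L k (x : LaurentSeries L) := rfl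

/-- **`W_M ∘ (X ↦ X^k) = (X ↦ X^k) ∘ W_{M₀}`** on `F_{M₀ q}(L)` (`k M₀ ∣ M`). -/
theorem s35d_W_phik (hk : k * M₀ ∣ M) (x : lg_F L (M₀ * q)) :
    ((ssm_al_W L M q hq hqM (s35d_phikHom L k M₀ M q hk x) : lg_F L (M * q)) :
        LaurentSeries L) =
      qExpand L k ((ssm_al_W L M₀ q hq hqM₀ x : lg_F L (M₀ * q)) : LaurentSeries L) := by
  have key : ((lg_F L (M * q)).val.comp
        ((ssm_al_W L M q hq hqM : lg_F L (M * q) →ₐ[L] lg_F L (M * q)).comp
          (s35d_phikHom L k M₀ M q hk))) =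
      (qExpandAlgHomC L k).comp ((lg_F L (M₀ * q)).val.comp
        (ssm_al_W L M₀ q hq hqM₀ : lg_F L (M₀ * q) →ₐ[L] lg_F L (M₀ * q))) := by
    refine IntermediateField.algHom_ext_of_eq_adjoin L (S := lg_F L (M₀ * q))
      (s := divisorExpansionsC L (M₀ * q)) rfl ?_
    rintro _ ⟨d, hd, hdN, rfl⟩
    have := hd
    rcases nls_dvd_cases hq hqM₀ hdN with hdM | ⟨e, rfl, heM⟩
    · have hm : qExpand L d (jqModC L) ∈ lg_F L M₀ := jqModCd_mem_full L M₀ hdM
      have hφ := s35d_phik_mem_base L k M₀ M hk hm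
      have h1 := ssm_al_coe_W_of_mem L M₀ q hq hqM₀ hm (jqModCd_mem_full L (M₀ * q) hdN)
      have h3 := ssm_al_coe_W_of_mem L M q hq hqM hφ
        (s35d_phik_mem L k M₀ M q hk (jqModCd_mem_full L (M₀ * q) hdN))
      change ((ssm_al_W L M q hq hqM ⟨qExpand L k (qExpand L d (jqModC L)), _⟩ :
          lg_F L (M * q)) : LaurentSeries L) =
        qExpand L k ((ssm_al_W L M₀ q hq hqM₀ ⟨qExpand L d (jqModC L), _⟩ :
          lg_F L (M₀ * q)) : LaurentSeries L)
      rw [h1, h3, ssm_al_qExpand_comm L q k]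
    · have he0 : NeZero e := ⟨fun h0 => by subst h0; exact NeZero.ne (q * 0) (by simp)⟩
      have hm : qExpand L e (jqModC L) ∈ lg_F L M₀ := jqModCd_mem_full L M₀ heM
      have hφ := s35d_phik_mem_base L k M₀ M hk hm
      have e1 : qExpand L (q * e) (jqModC L) = qExpand L q (qExpand L e (jqModC L)) := by
        rw [qExpand_qExpand]
      have e3 : qExpand L k (qExpand L (q * e) (jqModC L)) =
          qExpand L q (qExpand L k (qExpand L e (jqModC L))) := by
        rw [e1, ssm_al_qExpand_comm L k q]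
      have hmem : qExpand L q (qExpand L e (jqModC L)) ∈ lg_F L (M₀ * q) :=
        ssm_al_expand_mem L M₀ q hm
      have h1 := ssm_al_coe_W_expand_of_mem L M₀ q hq hqM₀ hm hmem
      have h3 := ssm_al_coe_W_expand_of_mem L M q hq hqM hφ (ssm_al_expand_mem L M q hφ)
      have e2 : (⟨qExpand L (q * e) (jqModC L), jqModCd_mem_full L (M₀ * q) hdN⟩ :
          lg_F L (M₀ * q)) = ⟨qExpand L q (qExpand L e (jqModC L)), hmem⟩ := Subtype.ext e1
      have e4 : s35d_phikHom L k M₀ M q hk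
          ⟨qExpand L (q * e) (jqModC L), jqModCd_mem_full L (M₀ * q) hdN⟩ =
          ⟨qExpand L q (qExpand L k (qExpand L e (jqModC L))), ssm_al_expand_mem L M q hφ⟩ :=
        Subtype.ext e3
      change ((ssm_al_W L M q hq hqM (s35d_phikHom L k M₀ M q hk
          ⟨qExpand L (q * e) (jqModC L), jqModCd_mem_full L (M₀ * q) hdN⟩) :
            lg_F L (M * q)) : LaurentSeries L) =
        qExpand L k ((ssm_al_W L M₀ q hq hqM₀
          ⟨qExpand L (q * e) (jqModC L), jqModCd_mem_full L (M₀ * q) hdN⟩ :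
            lg_F L (M₀ * q)) : LaurentSeries L)
      rw [e4, e2, h1, h3]
  exact DFunLike.congr_fun key x

end PhiK

/-! ### the Hesse cover -/

section PhiEH

variable (L : Type*) [Field L] [CharZero L] [Algebra L (AlgebraicClosure ℚ)] (h3 : (3 : L) ≠ 0)
  (hF9 : ∀ (N : ℕ) [NeZero N], hs_E L h3 N = modularFunctionFieldFullC L (Nat.lcm 9 (3 * N)))
  (N' q : ℕ) [NeZero N'] [NeZero q] (hq : q.Prime) (hq3 : ¬ 3 ∣ q) (hqN' : ¬ q ∣ N')

/-- **`W_E (x(X³)) = (W_{N'} x)(X³)`** for `x ∈ F_{N' q}(L)`: on `φ₃ F_{N' q}` the involution of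
`E = hs_E L h3 (N' q)` is the transport along `φ₃` of the Atkin–Lehner involution of `F_{N' q}`. -/
theorem s35d_coe_WEH_phi (x : lg_F L (N' * q))
    (h : qExpand L 3 (x : LaurentSeries L) ∈ hs_E L h3 (N' * q)) :
    ((ssm_alh_WE L h3 hF9 N' q hq hq3 hqN' ⟨qExpand L 3 (x : LaurentSeries L), h⟩ :
        hs_E L h3 (N' * q)) : LaurentSeries L) =
      qExpand L 3 ((ssm_al_W L N' q hq hqN' x : lg_F L (N' * q)) : LaurentSeries L) := by
  rw [ssm_alh_coe_WE]
  exact s35d_W_phik L 3 N' (ssm_alh_level N') q hq hqN' _ (ssm_alh_three_mul_dvd_level N') x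

end PhiEH

section IotaH

variable {L : Type*} [Field L] [Algebra ℚ L] (h3 : (3 : L) ≠ 0) (N : ℕ) [NeZero N]

/-- `ι₃ = (X ↦ X³) : F_N(L) → hs_E L h3 N`. -/
def s35d_iotaH :
    laurentBaseChange L (modularFunctionFieldFull N) →ₐ[L] hs_E L h3 N :=
  ((qExpandAlgHomC L 3).comp
    (laurentBaseChange L (modularFunctionFieldFull N)).val).codRestrict
    (hs_E L h3 N).toSubalgebra (fun x => hs_phi_mem_E L h3 N (ss2_dp_mem_lgF L N x.2))

theorem s35d_iotaH_coe (x : laurentBaseChange L (modularFunctionFieldFull N)) :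
    ((s35d_iotaH h3 N x : hs_E L h3 N) : LaurentSeries L) = qExpand L 3 (x : LaurentSeries L) :=
  rfl

end IotaH

section CoverH

variable {L : Type*} [Field L] [Algebra ℚ L] [CharZero L] [Algebra L Qb] (h3 : (3 : L) ≠ 0)
  (N' q : ℕ) [NeZero N'] [NeZero q] [hq : Fact q.Prime] (hq3 : ¬ 3 ∣ q) (hqN' : ¬ q ∣ N')

theorem s35d_normEH_eq (y : hs_E L h3 (N' * q)) :
    s35h_normE h3 N' q y =
      s35pe_normAlong (IntermediateField.inclusion (ssm_alh_E_le L h3 (ssm_fh_hF9 h3) N' q)) y :=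
  rfl

/-- a subfield of `E = hs_E L h3 (N' q)` containing `E'` and `ι₃ F_{N' q}` is everything. -/
theorem s35d_coverH_gen (S : Subfield (hs_E L h3 (N' * q)))
    (h1 : ∀ x : hs_E L h3 N',
      IntermediateField.inclusion (ssm_alh_E_le L h3 (ssm_fh_hF9 h3) N' q) x ∈ S)
    (h2 : ∀ y : laurentBaseChange L (modularFunctionFieldFull (N' * q)),
      s35d_iotaH h3 (N' * q) y ∈ S) : S = ⊤ := by
  refine s35pe_subfield_eq_top (IntermediateField.sup_def _ _) S (fun c => ?_) fun x hx h => ?_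
  · have := h1 (algebraMap L _ c)
    rwa [AlgHom.commutes] at this
  · rcases hx with hx | hx
    · -- `x ∈ φ₃ F_{N' q}`
      obtain ⟨y, hy, rfl⟩ := hx
      have hy' : y ∈ laurentBaseChange L (modularFunctionFieldFull (N' * q)) :=
        ss2_dp_mem_lbc L (N' * q) hy
      have := h2 ⟨y, hy'⟩
      have e : s35d_iotaH h3 (N' * q) ⟨y, hy'⟩ = ⟨hs_phi L y, h⟩ := Subtype.ext rfl
      rwa [e] at this
    · -- `x ∈ L(μ) ⊆ E'`
      have hx' : x ∈ hs_E L h3 N' := hs_K_le_E L h3 N' hx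
      have := h1 ⟨x, hx'⟩
      have e : IntermediateField.inclusion (ssm_alh_E_le L h3 (ssm_fh_hF9 h3) N' q) ⟨x, hx'⟩ =
          ⟨x, h⟩ := Subtype.ext rfl
      rwa [e] at this

theorem s35d_iotaH_alpha (x : laurentBaseChange L (modularFunctionFieldFull N')) :
    s35d_iotaH h3 (N' * q) (heckeAlphaBar L N' q x) =
      IntermediateField.inclusion (ssm_alh_E_le L h3 (ssm_fh_hF9 h3) N' q)
        (s35d_iotaH h3 N' x) := by
  apply Subtype.ext
  rw [s35d_iotaH_coe, coe_heckeAlphaBar, IntermediateField.coe_inclusion, s35d_iotaH_coe]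

include hq3 hqN' in
theorem s35d_finrankAlong_EH :
    finrankAlong L (IntermediateField.inclusion (ssm_alh_E_le L h3 (ssm_fh_hF9 h3) N' q)) =
      q + 1 := by
  rw [s35pe_finrankAlong_inclusion,
    ssm_alh_relfinrank_E L h3 (ssm_fh_hF9 h3) N' q hq.out hq3 hqN']

include hq3 hqN' in
/-- **(N2), inclusion**, `normAlong` form, Hesse cover. -/
theorem s35d_normAlong_iotaH (g : laurentBaseChange L (modularFunctionFieldFull (N' * q))) :
    s35pe_normAlong (IntermediateField.inclusion (ssm_alh_E_le L h3 (ssm_fh_hF9 h3) N' q))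
        ((s35d_iotaH h3 (N' * q)).toRingHom g) =
      (s35d_iotaH h3 N').toRingHom (s35pe_normAlong (heckeAlphaBar L N' q) g) := by
  have hpos : 0 < finrankAlong L (heckeAlphaBar L N' q) := by
    rw [ss2_dp_finrankAlong_alpha L N' q hq.out hqN']; exact Nat.succ_pos q
  have hdeg : finrankAlong L
      (IntermediateField.inclusion (ssm_alh_E_le L h3 (ssm_fh_hF9 h3) N' q)) =
      finrankAlong L (heckeAlphaBar L N' q) := by
    rw [ss2_dp_finrankAlong_alpha L N' q hq.out hqN', s35d_finrankAlong_EH h3 N' q hq3 hqN']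
  exact s35pe_normAlong_baseChange (heckeAlphaBar L N' q)
    (IntermediateField.inclusion (ssm_alh_E_le L h3 (ssm_fh_hF9 h3) N' q))
    (s35d_iotaH h3 N').toRingHom
    (s35d_iotaH h3 (N' * q)).toRingHom (fun x => s35d_iotaH_alpha h3 N' q x) hpos hdeg
    (fun S h1 h2 => s35d_coverH_gen h3 N' q S h1 h2) g

include hq3 hqN' in
/-- **(N2), inclusion, Hesse cover**: `Norm_{E/E'} (ι₃ g) = ι₃ (Norm_α g)`. -/
theorem s35d_normEH_iota (g : laurentBaseChange L (modularFunctionFieldFull (N' * q))) :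
    s35h_normE h3 N' q (s35d_iotaH h3 (N' * q) g) =
      s35d_iotaH h3 N' (s35pe_normAlong (heckeAlphaBar L N' q) g) :=
  s35d_normAlong_iotaH h3 N' q hq3 hqN' g

/-- **`W_E (ι₃ g) = ι₃ (W_F g)`**, Hesse cover. -/
theorem s35d_WEH_iota (g : laurentBaseChange L (modularFunctionFieldFull (N' * q))) :
    ssm_fh_W h3 N' q hq3 hqN' (s35d_iotaH h3 (N' * q) g) =
      s35d_iotaH h3 (N' * q) (ss2_dp_WF L N' q hqN' g) := by
  apply Subtype.ext
  rw [s35d_iotaH_coe, ss2_dp_WF_coe, ssm_glh_W_apply]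
  exact s35d_coe_WEH_phi L h3 (ssm_fh_hF9 h3) N' q hq.out hq3 hqN'
    ⟨g, ss2_dp_mem_lgF L (N' * q) g.2⟩ _

include hq3 in
/-- **(N2), Atkin–Lehner, Hesse cover**: `Norm_{E/E'} (W_E (ι₃ g)) = ι₃ (Norm_β g)`. -/
theorem s35d_normEH_W_iota (g : laurentBaseChange L (modularFunctionFieldFull (N' * q))) :
    s35h_normE h3 N' q (ssm_fh_W h3 N' q hq3 hqN' (s35d_iotaH h3 (N' * q) g)) =
      s35d_iotaH h3 N' (s35pe_normAlong (heckeBetaBar L N' q) g) := by
  rw [s35d_WEH_iota, s35d_normEH_iota h3 N' q hq3 hqN', ss2_dp_norm_alpha_WF]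

end CoverH

/-! ### equivariance and orders -/

section Equivariance

variable {L1 : Type} [Field L1] [Algebra ℚ L1] (h3 : (3 : L1) ≠ 0) (N : ℕ) [NeZero N]

/-- `ι₃ (σ1 • x) = σ_E (ι₃ x)`. -/
theorem s35d_iotaH_smul (σ1 : L1 ≃ₐ[ℚ] L1)
    (x : laurentBaseChange L1 (modularFunctionFieldFull N)) :
    s35d_iotaH h3 N (arithmeticGalois (modularFunctionFieldFull N) σ1 • x) =
      ssm_sgh_aut h3 N σ1.toRingEquiv (s35d_iotaH h3 N x) := by
  apply Subtype.ext
  rw [s35d_iotaH_coe, coe_arithmeticGalois_smul, ssm_sgh_aut_coe, s35d_iotaH_coe,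
    ← coeffMap_qExpand]
  exact coeffMap_congr (RingHom.ext fun _ => rfl) _

/-- divisibility of all orders passes to the pull-back `ι₃ g`. -/
theorem s35d_iotaH_dvd_ord (n : ℤ) (g : laurentBaseChange L1 (modularFunctionFieldFull N))
    (h : ∀ w : Place L1 (laurentBaseChange L1 (modularFunctionFieldFull N)), n ∣ w.ord g)
    (v : Place L1 (hs_E L1 h3 N)) : n ∣ v.ord (s35d_iotaH h3 N g) :=
  lg_dvd_ord_of_embedding (s35d_iotaH h3 N) n g h v

end Equivariance

end Fermat.Agent.S35
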