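/-
Project S35, cell [DESC-U] (helper9), service file for [ABEL-FAM] / [CORE-ASM]:
RESIDUE FIELDS ALONG THE TOWER OF LEVELS.

`A` a valuation subring of `Q̄` over `q`; for an intermediate field `L1 ⊆ Q̄` put
`O1 := A.comap (algebraMap ↥L1 Q̄)` (`= A ∩ L1`).

* `s35d_resJ A L1 : ResidueField O1 →+* ResidueField A`, `s35d_resJ_residue`;
* for `L1 ≤ L1'`: `s35d_incl h : ↥L1 →+* ↥L1'`, `s35d_incl_mem` (maps `O1` into `O1'`),
  `s35d_resT A h : ResidueField O1 →+* ResidueField O1'`, `s35d_resT_residue` (in the exact form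
  of the hypothesis `hfbar` of `s35kp_res_map` / `s35kp_kappa_map_mem`),
  `s35d_resJ_comp : (s35d_resJ A L1').comp (s35d_resT A h) = s35d_resJ A L1`;
* `s35d_res_halg` : every `c : ResidueField A` is a root of a monic polynomial with coefficients
  in `ResidueField O1` (even in the prime field): the hypothesis `halg` of `s35bs_ord_of_factor`.
* `s35d_resJ_frobenius`, `s35d_resT_frobenius` : compatibility with `frobenius _ q`.

Prefix `s35d_`.
-/
import Mathlib
import Fermat.Agent.S35.DescU.InertiaField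
import Fermat.Agent.JT3.PlaceMap.BaseField

set_option autoImplicit false
set_option linter.unusedSectionVars false

noncomputable section

namespace Fermat.Agent.S35

open Fermat.Agent.JT3 IntermediateField IsLocalRing Polynomial

local notation "Qb" => AlgebraicClosure ℚ

variable (A : ValuationSubring Qb)

/-- the inclusion `A ∩ L1 → A`. -/
def s35d_toA (L1 : IntermediateField ℚ Qb) : ↥(A.comap (algebraMap ↥L1 Qb)) →+* ↥A where
  toFun a := ⟨algebraMap ↥L1 Qb (a : ↥L1), a.2⟩
  map_one' := Subtype.ext (map_one _)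
  map_mul' a b := Subtype.ext (map_mul (algebraMap ↥L1 Qb) (a : ↥L1) (b : ↥L1))
  map_zero' := Subtype.ext (map_zero _)
  map_add' a b := Subtype.ext (map_add (algebraMap ↥L1 Qb) (a : ↥L1) (b : ↥L1))

theorem s35d_toA_coe (L1 : IntermediateField ℚ Qb) (a : ↥(A.comap (algebraMap ↥L1 Qb))) :
    ((s35d_toA A L1 a : ↥A) : Qb) = ((a : ↥L1) : Qb) := rfl

instance s35d_toA_isLocalHom (L1 : IntermediateField ℚ Qb) : IsLocalHom (s35d_toA A L1) := by
  refine ⟨fun a ha => ?_⟩
  by_contra hn
  have h1 : ((a : ↥L1)) ∈ (A.comap (algebraMap ↥L1 Qb)).nonunits :=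
    ValuationSubring.coe_mem_nonunits_iff.mpr ((mem_maximalIdeal a).mpr hn)
  rw [dsc_mem_comap_nonunits_iff] at h1
  have h2 : ((s35d_toA A L1 a : ↥A) : Qb) ∈ A.nonunits := h1
  rw [ValuationSubring.coe_mem_nonunits_iff, mem_maximalIdeal] at h2
  exact h2 ha

/-- **`j_{L1} : ResidueField (A ∩ L1) → ResidueField A`.** -/
def s35d_resJ (L1 : IntermediateField ℚ Qb) :
    ResidueField ↥(A.comap (algebraMap ↥L1 Qb)) →+* ResidueField ↥A :=
  ResidueField.map (s35d_toA A L1)

theorem s35d_resJ_residue (L1 : IntermediateField ℚ Qb) (a : ↥(A.comap (algebraMap ↥L1 Qb))) :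
    s35d_resJ A L1 (residue _ a) = residue ↥A ⟨algebraMap ↥L1 Qb (a : ↥L1), a.2⟩ :=
  ResidueField.map_residue _ _

section Tower

variable {L1 L1' : IntermediateField ℚ Qb} (h : L1 ≤ L1')

/-- the inclusion `↥L1 →+* ↥L1'`. -/
def s35d_incl : ↥L1 →+* ↥L1' := (IntermediateField.inclusion h).toRingHom

theorem s35d_incl_coe (x : ↥L1) : ((s35d_incl h x : ↥L1') : Qb) = (x : Qb) := rfl

theorem s35d_incl_mem : ∀ a ∈ A.comap (algebraMap ↥L1 Qb),
    s35d_incl h a ∈ A.comap (algebraMap ↥L1' Qb) := fun _ ha => ha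

/-- the inclusion `A ∩ L1 → A ∩ L1'`. -/
def s35d_toT : ↥(A.comap (algebraMap ↥L1 Qb)) →+* ↥(A.comap (algebraMap ↥L1' Qb)) where
  toFun a := ⟨s35d_incl h (a : ↥L1), s35d_incl_mem A h _ a.2⟩
  map_one' := Subtype.ext (map_one _)
  map_mul' a b := Subtype.ext (map_mul (s35d_incl h) (a : ↥L1) (b : ↥L1))
  map_zero' := Subtype.ext (map_zero _)
  map_add' a b := Subtype.ext (map_add (s35d_incl h) (a : ↥L1) (b : ↥L1))

theorem s35d_toA_toT (a : ↥(A.comap (algebraMap ↥L1 Qb))) :
    s35d_toA A L1' (s35d_toT A h a) = s35d_toA A L1 a := rfl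

instance s35d_toT_isLocalHom : IsLocalHom (s35d_toT A h) := by
  refine ⟨fun a ha => ?_⟩
  have h1 : IsUnit (s35d_toA A L1' (s35d_toT A h a)) := ha.map _
  rw [s35d_toA_toT] at h1
  exact (isUnit_map_iff (s35d_toA A L1) a).mp h1

/-- **the transition map `f̄ : ResidueField (A ∩ L1) → ResidueField (A ∩ L1')`.** -/
def s35d_resT : ResidueField ↥(A.comap (algebraMap ↥L1 Qb)) →+*
    ResidueField ↥(A.comap (algebraMap ↥L1' Qb)) :=
  ResidueField.map (s35d_toT A h)

/-- `hfbar` of `s35kp_res_map` / `s35kp_kappa_map_mem` for `f := s35d_incl h`,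
`hf := s35d_incl_mem A h`. -/
theorem s35d_resT_residue (a : ↥(A.comap (algebraMap ↥L1 Qb))) :
    s35d_resT A h (residue _ a) =
      residue ↥(A.comap (algebraMap ↥L1' Qb))
        ⟨s35d_incl h (a : ↥L1), s35d_incl_mem A h _ a.2⟩ :=
  ResidueField.map_residue _ _

/-- **`j_{L1'} ∘ f̄ = j_{L1}`.** -/
theorem s35d_resJ_comp : (s35d_resJ A L1').comp (s35d_resT A h) = s35d_resJ A L1 := by
  ext c
  obtain ⟨a, rfl⟩ := residue_surjective c
  simp only [RingHom.comp_apply]
  rw [s35d_resT_residue, s35d_resJ_residue, s35d_resJ_residue]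
  rfl

theorem s35d_resJ_resT (c : ResidueField ↥(A.comap (algebraMap ↥L1 Qb))) :
    s35d_resJ A L1' (s35d_resT A h c) = s35d_resJ A L1 c :=
  RingHom.congr_fun (s35d_resJ_comp A h) c

end Tower

section Alg

variable (q : ℕ) [hq : Fact q.Prime] (hA : A.LiesOverPrime q) (L1 : IntermediateField ℚ Qb)

include hA in
/-- **`ResidueField A` is integral over the residue field of every level** (hypothesis `halg` of
`s35bs_ord_of_factor`): every `c` is a root of `X^(m+1) − X` for some `m ≥ 1`. -/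
theorem s35d_res_halg (c : ResidueField ↥A) :
    ∃ p : (ResidueField ↥(A.comap (algebraMap ↥L1 Qb)))[X], p.Monic ∧
      (p.map (s35d_resJ A L1)).eval c = 0 := by
  classical
  obtain ⟨a, rfl⟩ := residue_surjective c
  by_cases ha : residue ↥A a = 0
  · refine ⟨X, monic_X, ?_⟩
    rw [Polynomial.map_X, eval_X, ha]
  · obtain ⟨m, hm, hpow⟩ := ebf_residue_pow_eq_one A q hA a ha
    have hm1 : 1 ≤ m := by
      rcases Nat.eq_zero_or_pos m with h0 | h0
      · exact absurd (h0 ▸ dvd_zero q) hm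
      · exact h0
    refine ⟨X ^ (m + 1) - X, ?_, ?_⟩
    · apply monic_X_pow_sub
      rw [degree_X]
      exact_mod_cast (by omega : 1 < m + 1)
    · rw [Polynomial.map_sub, Polynomial.map_pow, Polynomial.map_X, eval_sub, eval_pow, eval_X,
        pow_succ, hpow, one_mul, sub_self]

end Alg

section Frob

variable (q : ℕ) [hq : Fact q.Prime]

theorem s35d_resJ_frobenius (L1 : IntermediateField ℚ Qb)
    [CharP (ResidueField ↥(A.comap (algebraMap ↥L1 Qb))) q] [CharP (ResidueField ↥A) q]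
    (c : ResidueField ↥(A.comap (algebraMap ↥L1 Qb))) :
    s35d_resJ A L1 (frobenius _ q c) = frobenius _ q (s35d_resJ A L1 c) := by
  simp only [frobenius_def, map_pow]

theorem s35d_resT_frobenius {L1 L1' : IntermediateField ℚ Qb} (h : L1 ≤ L1')
    [CharP (ResidueField ↥(A.comap (algebraMap ↥L1 Qb))) q]
    [CharP (ResidueField ↥(A.comap (algebraMap ↥L1' Qb))) q]
    (c : ResidueField ↥(A.comap (algebraMap ↥L1 Qb))) :
    s35d_resT A h (frobenius _ q c) = frobenius _ q (s35d_resT A h c) := by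
  simp only [frobenius_def, map_pow]

end Frob

end Fermat.Agent.S35
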