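/-
Project S35, cell [DESC-φ], HESSE cover (helper9; twin of helper22's `SS2/DescPhi/StepLeg.lean`):
THE DESCENT STEP over one level `L1 ⊆ Q̄`.

`g1 ∈ F_{N' q}(L1)`, `G = bc g1 ∈ F_{N' q}(Q̄)`, `ι₃ = (X ↦ X³) : F_{N' q}(L1) → E = hs_E L1 h3 (N' q)`.

* `s35d_newAtH`     : if the norms of `G` along `α`, `β` are constants times `m`-th powers (over
                      `Q̄`), then `ι₃ g1` satisfies `s35h_NewAt` over `L1` ((N1) + (R) + (N2)-Hesse);
* `s35d_pullbackH`  : from the core relation `(σ²(ι₃ g1))^d = c · r^m · (ι₃ g1)^e` in the Hesse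
                      cover over `L1` (`ζ₃ ∈ L1`) to `(φ² G)^d = c' · r'^m · G^e` over `Q̄` (root
                      descent `E → F_{N' q}(L1)`: `ssd_hes_rootDescent`, + extension of constants).
Both are independent of the primed/unprimed form of the core (apply the second one to
`g1' = σ1 • g1 / g1`).  Prefix `s35d_`.
-/
import Mathlib
import Fermat.Agent.S35.DescU.NormCoverHes
import Fermat.Agent.SS2.DescPhi.StepLeg

set_option autoImplicit false
set_option linter.unusedSectionVars false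
set_option linter.unusedVariables false
set_option linter.style.haveILetI false

noncomputable section

namespace Fermat.Agent.S35

open ModularCurve AlgebraicCurve Module Fermat.Agent.JT3 Fermat.Agent.S24 Fermat.Agent.SS
  Fermat.Agent.SS2

local notation "Qb" => AlgebraicClosure ℚ

section NewAtH

variable (L1 : Type) [Field L1] [Algebra ℚ L1] [CharZero L1] [Algebra L1 Qb]
  [IsScalarTower ℚ L1 Qb] (h3 : (3 : L1) ≠ 0)
  (N' q : ℕ) [NeZero N'] [NeZero q] [hq : Fact q.Prime] (hq3 : ¬ 3 ∣ q) (hqN' : ¬ q ∣ N')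

include hq3 hqN' in
/-- **the new-at package over `L1`** from the norms over `Q̄`, Hesse cover. -/
theorem s35d_newAtH {m : ℕ} (hm : m ≠ 0)
    (g1 : laurentBaseChange L1 (modularFunctionFieldFull (N' * q))) (hg1 : g1 ≠ 0)
    (hord : ∀ w : Place L1 (laurentBaseChange L1 (modularFunctionFieldFull (N' * q))),
      (m : ℤ) ∣ w.ord g1)
    (hA : ∃ (c : Qb) (r : modularFunctionFieldBar N'),
      s35pe_normAlong (heckeAlphaBar Qb N' q)
        (dsc_bcHom L1 Qb (modularFunctionFieldFull (N' * q)) g1) =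
          algebraMap Qb (modularFunctionFieldBar N') c * r ^ m)
    (hB : ∃ (c : Qb) (r : modularFunctionFieldBar N'),
      s35pe_normAlong (heckeBetaBar Qb N' q)
        (dsc_bcHom L1 Qb (modularFunctionFieldFull (N' * q)) g1) =
          algebraMap Qb (modularFunctionFieldBar N') c * r ^ m) :
    s35h_NewAt h3 N' q hq3 hqN' m (s35d_iotaH h3 (N' * q) g1) := by
  refine ⟨?_, ?_, ?_, ?_⟩
  · rwa [Ne, map_eq_zero]
  · intro v
    exact s35d_iotaH_dvd_ord h3 (N' * q) (m : ℤ) g1 hord v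
  · obtain ⟨c, r, hcr⟩ := hA
    rw [ss2_dp_norm_bc_alpha L1 N' q hq.out hqN'] at hcr
    obtain ⟨a, s, has⟩ := ss2_dp_root_descent L1 (rt_isSepGen_jBar N') hm _ c r hcr
    have hs : s ≠ 0 := by
      rintro rfl
      rw [zero_pow hm, mul_zero] at has
      exact ss2_dp_normAlong_alpha_ne_zero N' q hqN' L1 hg1 has
    refine ⟨a, s35d_iotaH h3 N' s, by rwa [Ne, map_eq_zero], ?_⟩
    rw [s35d_normEH_iota h3 N' q hq3 hqN', has, map_mul, map_pow, AlgHom.commutes]
  · obtain ⟨c, r, hcr⟩ := hB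
    rw [ss2_dp_norm_bc_beta L1 N' q hq.out hqN'] at hcr
    obtain ⟨a, s, has⟩ := ss2_dp_root_descent L1 (rt_isSepGen_jBar N') hm _ c r hcr
    have hs : s ≠ 0 := by
      rintro rfl
      rw [zero_pow hm, mul_zero] at has
      exact ss2_dp_normAlong_beta_ne_zero N' q hqN' L1 hg1 has
    refine ⟨a, s35d_iotaH h3 N' s, by rwa [Ne, map_eq_zero], ?_⟩
    rw [s35d_normEH_W_iota h3 N' q hq3 hqN', has, map_mul, map_pow, AlgHom.commutes]

end NewAtH

section PullbackH

variable (L1 : Type) [Field L1] [Algebra ℚ L1] [CharZero L1] [Algebra L1 Qb]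
  [IsScalarTower ℚ L1 Qb] (h3 : (3 : L1) ≠ 0) (N : ℕ) [NeZero N]

/-- **from the core relation in the Hesse cover over `L1` to the Kummer relation over `Q̄`.** -/
theorem s35d_pullbackH {ζ : L1} (hζ : IsPrimitiveRoot ζ 3)
    (φ : Qb ≃ₐ[ℚ] Qb) (σ1 : L1 ≃ₐ[ℚ] L1)
    (hσ : ∀ x : L1, algebraMap L1 Qb (σ1 x) = φ (algebraMap L1 Qb x))
    {m : ℕ} (hm : m ≠ 0) (d e : ℕ)
    (g1 : laurentBaseChange L1 (modularFunctionFieldFull N)) (hg1 : g1 ≠ 0)
    (hord : ∀ w : Place L1 (laurentBaseChange L1 (modularFunctionFieldFull N)),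
      (m : ℤ) ∣ w.ord g1)
    (c : L1) (r : hs_E L1 h3 N)
    (hcr : ssm_sgh_aut h3 N σ1.toRingEquiv
        (ssm_sgh_aut h3 N σ1.toRingEquiv (s35d_iotaH h3 N g1)) ^ d =
      algebraMap L1 (hs_E L1 h3 N) c * r ^ m * s35d_iotaH h3 N g1 ^ e) :
    ∃ (c' : Qb) (r' : modularFunctionFieldBar N), r' ≠ 0 ∧
      ss_act N φ (ss_act N φ (dsc_bcHom L1 Qb (modularFunctionFieldFull N) g1)) ^ d =
        algebraMap Qb (modularFunctionFieldBar N) c' * r' ^ m *
          dsc_bcHom L1 Qb (modularFunctionFieldFull N) g1 ^ e := by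
  set Φ1 := arithmeticGalois (modularFunctionFieldFull N) σ1 with hΦ1
  set G := dsc_bcHom L1 Qb (modularFunctionFieldFull N) g1 with hG
  have hΦg : Φ1 • g1 ≠ 0 := by rwa [Ne, smul_eq_zero_iff_eq]
  have hΦΦg : Φ1 • (Φ1 • g1) ≠ 0 := by rwa [Ne, smul_eq_zero_iff_eq]
  have hιg : s35d_iotaH h3 N g1 ≠ 0 := by rwa [Ne, map_eq_zero]
  have hG0 : G ≠ 0 := by rwa [hG, Ne, map_eq_zero]
  obtain ⟨h1, hh1⟩ : ∃ h1 : laurentBaseChange L1 (modularFunctionFieldFull N),
      h1 = (Φ1 • (Φ1 • g1)) ^ d / g1 ^ e := ⟨_, rfl⟩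
  have hh10 : h1 ≠ 0 := by
    rw [hh1]
    exact div_ne_zero (pow_ne_zero _ hΦΦg) (pow_ne_zero _ hg1)
  have hordh : ∀ w : Place L1 (laurentBaseChange L1 (modularFunctionFieldFull N)),
      (m : ℤ) ∣ w.ord h1 := fun w => by
    rw [hh1]
    exact ss2_dp_dvd_ord_quot Φ1 (m : ℤ) hg1 hord d e w
  -- the image of `h1` in the cover
  have hιh : s35d_iotaH h3 N h1 = algebraMap L1 (hs_E L1 h3 N) c * r ^ m := by
    rw [hh1, map_div₀, map_pow, map_pow, s35d_iotaH_smul, s35d_iotaH_smul, hcr]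
    field_simp
  -- root descent from the cover
  have hmemE : ∀ x : LaurentSeries L1, x ∈ hs_E L1 h3 N →
      x ∈ laurentBaseChange L1 (hs_E ℚ ssd_three_ne_zero_rat N) :=
    fun x hx => by rw [← ssd_hs_E_eq L1 N h3 ssd_three_ne_zero_rat]; exact hx
  have heq : qExpand L1 3 (h1 : LaurentSeries L1) =
      algebraMap L1 (LaurentSeries L1) c * (r : LaurentSeries L1) ^ m := by
    have := congrArg (fun z : hs_E L1 h3 N => (z : LaurentSeries L1)) hιh
    exact this
  obtain ⟨c', g', hcg⟩ := ssd_hes_rootDescent N L1 hζ hm h1 hordh c (r : LaurentSeries L1)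
    (hmemE _ r.2) heq
  have hg'0 : g' ≠ 0 := by
    rintro rfl
    rw [zero_pow hm, mul_zero] at hcg
    exact hh10 hcg
  refine ⟨algebraMap L1 Qb c', dsc_bcHom L1 Qb (modularFunctionFieldFull N) g',
    by rwa [Ne, map_eq_zero], ?_⟩
  -- base change
  have e1 : dsc_bcHom L1 Qb (modularFunctionFieldFull N) h1 =
      ss_act N φ (ss_act N φ G) ^ d / G ^ e := by
    rw [hh1, map_div₀, map_pow, map_pow, ss2_dp_bc_smul L1 N φ σ1 hσ,
      ss2_dp_bc_smul L1 N φ σ1 hσ]
  have e2 : dsc_bcHom L1 Qb (modularFunctionFieldFull N) h1 =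
      algebraMap Qb (modularFunctionFieldBar N) (algebraMap L1 Qb c') *
        dsc_bcHom L1 Qb (modularFunctionFieldFull N) g' ^ m := by
    rw [hcg, map_mul, map_pow, dsc_bcHom_algebraMap]
  rw [← e2, e1, div_mul_cancel₀ _ (pow_ne_zero e hG0)]

end PullbackH

end Fermat.Agent.S35
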