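/-
Project S35, cell [DESC-U] (helper9): THE CONVERSE OF `s35d_dvr`.

`A` a valuation subring of `Q̄` over `q`, `L1 ⊆ Q̄` a subfield (any degree).  If `q` is an
irreducible element of `O1 = A ∩ L1`, then the inertia group `I_A` fixes `L1` pointwise
(`L1 ≤ Q̄^{I_A} = ffi_L A`): `s35d_fixed_of_irreducible`.  Hence `O1` is a discrete valuation ring
(`s35d_dvr_of_irreducible`), and a `D_A`-stable finite such `L1` is a level
(`s35d_isLevel_of_irreducible`).

So in the number-field seams of `S35/Seams2.lean` the hypothesis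
`Irreducible ((q : ℕ) : ↥(A.comap (algebraMap ↥L1 Q̄)))` ALREADY implies that `I_A` fixes `L1`.

Proof: in a valuation ring an irreducible element generates the maximal ideal
(`s35d_maximalIdeal_of_irreducible`); then `ffx_unr` of FF/DescentUnr.lean (inertia criterion
`ffx_ic_int` in the normal closure of `ℚ(a)`).  Prefix `s35d_`.
-/
import Mathlib
import Fermat.Agent.S35.DescU.InertiaField
import Fermat.Agent.FF.DescentUnr

set_option autoImplicit false
set_option linter.unusedSectionVars false

noncomputable section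

namespace Fermat.Agent.S35

open Fermat.Agent.FF Fermat.Agent.JT3 IntermediateField

local notation "Qb" => AlgebraicClosure ℚ
local notation "GQ" => (AlgebraicClosure ℚ ≃ₐ[ℚ] AlgebraicClosure ℚ)

/-- in a valuation ring every nonunit is divisible by every irreducible element. -/
theorem s35d_dvd_of_irreducible {K : Type*} [Field K] (V : ValuationSubring K) {ϖ : V}
    (hϖ : Irreducible ϖ) {x : V} (hx : ¬ IsUnit x) : ϖ ∣ x := by
  rcases ValuationRing.dvd_total ϖ x with h | h
  · exact h
  · obtain ⟨y, hy⟩ := h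
    rcases hϖ.isUnit_or_isUnit hy with h1 | h1
    · exact absurd h1 hx
    · obtain ⟨u, rfl⟩ := h1
      exact ⟨(u⁻¹ : Vˣ), by rw [hy, mul_assoc, Units.mul_inv, mul_one]⟩

variable (q : ℕ) [hq : Fact q.Prime] (A : ValuationSubring Qb) (hA : A.LiesOverPrime q)
  (L1 : IntermediateField ℚ Qb)
  (hπ : Irreducible (((q : ℕ) : ↥(A.comap (algebraMap L1 Qb)))))

include hπ in
/-- if `q` is irreducible in `A ∩ L1`, then `𝔪_A ∩ L1 = q · (A ∩ L1)`. -/
theorem s35d_unr_of_irreducible {a : Qb} (ha : a ∈ L1) (han : a ∈ A.nonunits) :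
    a / (q : Qb) ∈ A := by
  have hq0 : (q : Qb) ≠ 0 := Nat.cast_ne_zero.2 hq.out.ne_zero
  have haA : a ∈ A := A.nonunits_le han
  set x : ↥(A.comap (algebraMap L1 Qb)) := ⟨⟨a, ha⟩, haA⟩ with hx
  have hxn : ¬ IsUnit x := by
    intro hu
    have h1 : ((x : L1)) ∈ (A.comap (algebraMap L1 Qb)).nonunits := by
      rw [dsc_mem_comap_nonunits_iff]
      exact han
    rw [ValuationSubring.coe_mem_nonunits_iff] at h1
    exact h1 hu
  obtain ⟨y, hy⟩ := s35d_dvd_of_irreducible _ hπ hxn
  have h2 : a = (q : Qb) * algebraMap L1 Qb (y : L1) := by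
    have := congrArg (fun z : ↥(A.comap (algebraMap L1 Qb)) => algebraMap L1 Qb (z : L1)) hy
    simpa [hx] using this
  rw [h2, mul_div_cancel_left₀ _ hq0]
  exact y.2

include hA hπ in
/-- **if `q` is irreducible in `A ∩ L1`, the inertia group `I_A` fixes `L1` pointwise.** -/
theorem s35d_fixed_of_irreducible : L1 ≤ ffi_L A := by
  intro a ha
  rw [ffi_mem_L]
  intro σ hσ
  exact ffx_unr q A hA L1 (fun a ha han => s35d_unr_of_irreducible q A L1 hπ ha han) σ hσ a ha

include hA hπ in
theorem s35d_fixed_of_irreducible' {x : Qb} (hx : x ∈ L1) {s : GQ}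
    (hs : s ∈ A.inertiaSubgroupIn ℚ) : s x = x :=
  ffi_mem_L.1 (s35d_fixed_of_irreducible q A hA L1 hπ hx) s hs

include hA hπ in
/-- if `q` is irreducible in `A ∩ L1`, then `A ∩ L1` is a discrete valuation ring. -/
theorem s35d_dvr_of_irreducible : IsDiscreteValuationRing ↥(A.comap (algebraMap L1 Qb)) :=
  (s35d_dvr A q hA L1 (s35d_fixed_of_irreducible q A hA L1 hπ)).1

include hA hπ in
/-- a finite `D_A`-stable subfield in which `q` is irreducible at `A` is a level. -/
theorem s35d_isLevel_of_irreducible [FiniteDimensional ℚ L1]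
    (hst : ∀ σ ∈ A.decompositionSubgroup ℚ, ∀ a ∈ L1, σ a ∈ L1) : s35d_IsLevel A q L1 where
  fd := inferInstance
  le := s35d_fixed_of_irreducible q A hA L1 hπ
  stable := hst
  dvr := s35d_dvr_of_irreducible q A hA L1 hπ
  irr := hπ

end Fermat.Agent.S35
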